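/-
T16 / LB (helper66): abstract congruence lemma for the lower bound.

Setting: `Γ` a group, `H A := Additive Γ →+ A`.  A family of operators `c i A : H A →+ H A`
(`i : ι`), natural in the coefficient group `A` (NOT assumed to commute).  A commutative ring `𝕋`
generated-by-nothing-in-particular with elements `t i`, acting additively on `V` through `ρ`, and
an additive "period map" `per : V →+ H ℂ` with `per (ρ (t i) v) = c i ℂ (per v)`.
If `P ∈ ℤ[X_i]` has `P(t) = 0`, `Φ ∈ H ℤ` has complexification in the range of `per`, and the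
reduction `ψ` of `Φ` mod `n` is an eigenvector (`c i ψ = lam i • ψ`) of exact order `n`, then
`n ∣ P(lam)`.
-/
import Mathlib

set_option autoImplicit false

namespace Fermat.Agent.S16_helper66.CongAbs

open MvPolynomial

variable {ι : Type*} {Γ : Type*} [Group Γ]

/-- Push-forward of homs along a coefficient map. -/
def push {A B : Type} [AddCommGroup A] [AddCommGroup B] (g : A →+ B) :
    (Additive Γ →+ A) →+ (Additive Γ →+ B) where
  toFun φ := g.comp φ
  map_zero' := by ext; simp
  map_add' φ φ' := by ext; simp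

@[simp] theorem push_apply {A B : Type} [AddCommGroup A] [AddCommGroup B] (g : A →+ B)
    (φ : Additive Γ →+ A) : push g φ = g.comp φ := rfl

theorem push_injective {A B : Type} [AddCommGroup A] [AddCommGroup B] (g : A →+ B)
    (hg : Function.Injective g) : Function.Injective (push (Γ := Γ) g) := by
  intro φ φ' h
  ext x
  apply hg
  exact DFunLike.congr_fun h x

/-- View an additive endomorphism as an element of the ring `AddMonoid.End`. -/
def toEnd {M : Type*} [AddCommGroup M] (f : M →+ M) : AddMonoid.End M := f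

@[simp] theorem toEnd_apply {M : Type*} [AddCommGroup M] (f : M →+ M) (m : M) :
    toEnd f m = f m := rfl

/-- The (noncommutative) word operator attached to `Q ∈ ℤ⟨ι⟩`. -/
noncomputable def wordOp (c : ι → ∀ (A : Type) [AddCommGroup A],
    (Additive Γ →+ A) →+ (Additive Γ →+ A)) (A : Type) [AddCommGroup A] :
    FreeAlgebra ℤ ι →ₐ[ℤ] AddMonoid.End (Additive Γ →+ A) :=
  FreeAlgebra.lift ℤ (fun i => toEnd (c i A))

theorem end_mul_apply {M : Type*} [AddCommGroup M] (f g : AddMonoid.End M) (m : M) :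
    (f * g) m = f (g m) := rfl

theorem end_add_apply {M : Type*} [AddCommGroup M] (f g : AddMonoid.End M) (m : M) :
    (f + g) m = f m + g m := rfl

theorem wordOp_ι (c : ι → ∀ (A : Type) [AddCommGroup A],
    (Additive Γ →+ A) →+ (Additive Γ →+ A)) (A : Type) [AddCommGroup A] (i : ι) :
    wordOp c A (FreeAlgebra.ι ℤ i) = toEnd (c i A) := by
  unfold wordOp
  rw [FreeAlgebra.lift_ι_apply]

theorem algebraMap_end_apply {M : Type*} [AddCommGroup M] (k : ℤ) (m : M) :
    (algebraMap ℤ (AddMonoid.End M) k) m = k • m := by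
  rw [eq_intCast, AddMonoid.End.intCast_apply]

/-- Naturality of word operators in the coefficient group. -/
theorem wordOp_push (c : ι → ∀ (A : Type) [AddCommGroup A],
    (Additive Γ →+ A) →+ (Additive Γ →+ A))
    (hnat : ∀ (i : ι) (A B : Type) [AddCommGroup A] [AddCommGroup B] (g : A →+ B)
      (φ : Additive Γ →+ A), c i B (g.comp φ) = g.comp (c i A φ))
    {A B : Type} [AddCommGroup A] [AddCommGroup B] (g : A →+ B) (Q : FreeAlgebra ℤ ι)
    (φ : Additive Γ →+ A) : wordOp c B Q (push g φ) = push g (wordOp c A Q φ) := by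
  induction Q using FreeAlgebra.induction generalizing φ with
  | grade0 k =>
    simp only [AlgHom.commutes, algebraMap_end_apply, map_zsmul]
  | grade1 i =>
    simp only [wordOp_ι, push_apply, toEnd_apply]
    exact hnat i A B g φ
  | mul a b ha hb =>
    simp only [map_mul, end_mul_apply] at *
    rw [hb, ha]
  | add a b ha hb =>
    simp only [map_add, end_add_apply] at *
    rw [ha, hb]

/-- Eigenvectors: word operators act through the commutative evaluation. -/
theorem wordOp_eigen (c : ι → ∀ (A : Type) [AddCommGroup A],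
    (Additive Γ →+ A) →+ (Additive Γ →+ A)) {A : Type} [AddCommGroup A]
    (lam : ι → ℤ) (ψ : Additive Γ →+ A) (hψ : ∀ i, c i A ψ = lam i • ψ)
    (Q : FreeAlgebra ℤ ι) : wordOp c A Q ψ = (FreeAlgebra.lift ℤ lam Q) • ψ := by
  induction Q using FreeAlgebra.induction with
  | grade0 k =>
    simp only [AlgHom.commutes, algebraMap_end_apply, Algebra.algebraMap_self, RingHom.id_apply]
  | grade1 i =>
    simp only [wordOp_ι, FreeAlgebra.lift_ι_apply, toEnd_apply]
    exact hψ i
  | mul a b ha hb =>
    simp only [map_mul, end_mul_apply] at *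
    rw [hb, map_zsmul, ha, smul_smul, mul_comm]
  | add a b ha hb =>
    simp only [map_add, end_add_apply] at *
    rw [ha, hb, add_smul]

/-- Commutative image of a word. -/
noncomputable def toPoly : FreeAlgebra ℤ ι →ₐ[ℤ] MvPolynomial ι ℤ :=
  FreeAlgebra.lift ℤ (fun i => (X i : MvPolynomial ι ℤ))

theorem toPoly_surjective : Function.Surjective (toPoly (ι := ι)) := by
  intro P
  induction P using MvPolynomial.induction_on with
  | C a => exact ⟨algebraMap ℤ _ a, by simp [toPoly]⟩
  | add p q hp hq =>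
    obtain ⟨a, rfl⟩ := hp
    obtain ⟨b, rfl⟩ := hq
    exact ⟨a + b, map_add _ _ _⟩
  | mul_X p i hp =>
    obtain ⟨a, rfl⟩ := hp
    exact ⟨a * FreeAlgebra.ι ℤ i, by simp [toPoly]⟩

theorem aeval_toPoly {S : Type*} [CommRing S] (t : ι → S) (Q : FreeAlgebra ℤ ι) :
    aeval t (toPoly Q) = FreeAlgebra.lift ℤ t Q := by
  have : (aeval t : MvPolynomial ι ℤ →ₐ[ℤ] S).comp toPoly = FreeAlgebra.lift ℤ t := by
    apply FreeAlgebra.hom_ext
    funext i
    simp [toPoly]
  exact DFunLike.congr_fun this Q


/-- Equivariance of an additive "period map" propagates from generators to words. -/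
theorem per_wordOp (c : ι → ∀ (A : Type) [AddCommGroup A],
    (Additive Γ →+ A) →+ (Additive Γ →+ A))
    {𝕋 : Type*} [CommRing 𝕋] (t : ι → 𝕋) {V : Type*} [AddCommGroup V]
    (ρ : 𝕋 →+* AddMonoid.End V) (per : V →+ (Additive Γ →+ ℂ))
    (hper : ∀ i v, per (ρ (t i) v) = c i ℂ (per v)) (Q : FreeAlgebra ℤ ι) (v : V) :
    per (ρ (FreeAlgebra.lift ℤ t Q) v) = wordOp c ℂ Q (per v) := by
  induction Q using FreeAlgebra.induction generalizing v with
  | grade0 k =>
    simp only [eq_intCast, map_intCast, AddMonoid.End.intCast_apply, map_zsmul]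
  | grade1 i =>
    simp only [wordOp_ι, FreeAlgebra.lift_ι_apply, toEnd_apply]
    exact hper i v
  | mul a b ha hb =>
    simp only [map_mul, end_mul_apply] at *
    rw [ha, hb]
  | add a b ha hb =>
    simp only [map_add, end_add_apply] at *
    rw [ha, hb]

/-- **Abstract congruence lemma.**  Operators `c i A` on `Hom(Γ, A)` natural in `A`; a commutative
ring `𝕋 ∋ t i` acting on `V` through `ρ`; `per : V →+ Hom(Γ, ℂ)` equivariant on generators.
If `P(t)` acts as `0` on `V`, the complexification of `Φ : Γ → ℤ` is a period, and the reduction `ψ`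
of `Φ` mod `n` is an eigenvector with eigenvalues `lam i` of exact order `n`, then `n ∣ P(lam)`. -/
theorem dvd_aeval_of_eigen
    (c : ι → ∀ (A : Type) [AddCommGroup A], (Additive Γ →+ A) →+ (Additive Γ →+ A))
    (hnat : ∀ (i : ι) (A B : Type) [AddCommGroup A] [AddCommGroup B] (g : A →+ B)
      (φ : Additive Γ →+ A), c i B (g.comp φ) = g.comp (c i A φ))
    {𝕋 : Type*} [CommRing 𝕋] (t : ι → 𝕋) {V : Type*} [AddCommGroup V]
    (ρ : 𝕋 →+* AddMonoid.End V) (per : V →+ (Additive Γ →+ ℂ))
    (hper : ∀ i v, per (ρ (t i) v) = c i ℂ (per v))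
    (P : MvPolynomial ι ℤ) (hP : ∀ v, ρ (aeval t P) v = 0)
    (n : ℕ) (lam : ι → ℤ) (Φ : Additive Γ →+ ℤ) (ψ : Additive Γ →+ ZMod n)
    (hΦ : ∃ v, per v = (Int.castAddHom ℂ).comp Φ)
    (hψΦ : ∀ g, ψ g = ((Φ g : ℤ) : ZMod n))
    (heig : ∀ i, c i (ZMod n) ψ = lam i • ψ)
    (hord : ∀ k : ℤ, k • ψ = 0 → (n : ℤ) ∣ k) :
    (n : ℤ) ∣ aeval lam P := by
  obtain ⟨Q, rfl⟩ := toPoly_surjective P
  obtain ⟨v, hv⟩ := hΦ
  -- the word operator kills the complexification of Φ
  have h1 : wordOp c ℂ Q ((Int.castAddHom ℂ).comp Φ) = 0 := by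
    rw [← hv, ← per_wordOp c t ρ per hper Q v, ← aeval_toPoly, hP, map_zero]
  -- hence it kills Φ
  have h2 : wordOp c ℤ Q Φ = 0 := by
    apply push_injective (Γ := Γ) (Int.castAddHom ℂ) Int.cast_injective
    rw [← wordOp_push c hnat, map_zero]
    exact h1
  -- reduce mod n
  have hψ : ψ = push (Int.castAddHom (ZMod n)) Φ := by
    ext g
    simp [hψΦ]
  have h3 : wordOp c (ZMod n) Q ψ = 0 := by
    rw [hψ, wordOp_push c hnat, h2, map_zero]
  rw [wordOp_eigen c lam ψ heig Q] at h3
  rw [aeval_toPoly]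
  exact hord _ h3

end Fermat.Agent.S16_helper66.CongAbs
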